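import Fermat.Agent.A2.Mod.H189.GoodRedCoord
import Fermat.Agent.A2.Mod.H216.GoodRed
import Fermat.Agent.A2.Top.H994.ModTop

/-!
# Cell A2 / MOD: GOODRED CLOSED (helper189) — `Top.H994.GoodRedStatement`, all `q`

* `q ≥ 5` : `H216.goodRedHyp` (helper216: good model of row S18 in the coordinate `j` + b2).
* `q = 3`, `2 ∣ M` : `S18.Mod.H216.goodModel_of_partR` in the coordinate `t₂`
  (`S18.H333.t2Om`), helper216's adapter `H216.goodRedAt_of_goodModel` at `t2E`, and the chart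
  change `goodRedHyp_of_t2` (`GoodRedCoord.lean`).
* `q = 2`, `3 ∣ M` : the same with `t₃`.

Main result: `goodRedStatement : Top.H994.GoodRedStatement`.
-/

set_option autoImplicit false
set_option linter.unusedSectionVars false
set_option linter.style.haveILetI false
set_option synthInstance.maxHeartbeats 400000
set_option maxHeartbeats 1600000

noncomputable section

namespace Fermat.Agent.A2.Mod.H189

open ModularCurve HahnSeries Polynomial Fermat.Agent.A2 Fermat.Agent.A2.Mod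
open Fermat.Agent.S18.H333 (t2Z t3Z)

variable (P : ValuationSubring Qb) (E : IntermediateField ℚ Qb) (M : ℕ)

theorem bridge_feOf (X : LaurentSeries ℤ) (hX : H708.castQ X ∈ modularFunctionFieldFull M) :
    H216.bridge E M (feOf E M X hX) = Fermat.Agent.S18.H333.omOf M X hX := by
  apply Subtype.ext
  rw [H216.coe_bridge, coe_feOf, Fermat.Agent.S18.H333.omOf_coe, coeffMap_coeffMap]
  exact coeffMap_congr (RingHom.ext_int _ _) X

theorem bridge_t2E (hM : 2 ∣ M) :
    H216.bridge E M (t2E E M hM) = Fermat.Agent.S18.H333.t2Om M hM :=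
  bridge_feOf E M t2Z _

theorem bridge_t3E (hM : 3 ∣ M) :
    H216.bridge E M (t3E E M hM) = Fermat.Agent.S18.H333.t3Om M hM :=
  bridge_feOf E M t3Z _

variable [NeZero M]

/-- Good reduction in the charts of `t₂` (`q = 3`, `2 ∣ M`), over any level `E`. -/
theorem goodRedAt_t2 (hP : P.LiesOverPrime 3) (h3M : ¬ 3 ∣ M) (hM : 2 ∣ M)
    [IsDiscreteValuationRing (RE P E)] (w : RE P E) (hw : Irreducible w)
    (VM : ValuationSubring (FE E M)) (hV : IsVinf P E M VM) :
    GoodRedAt P E M w VM (t2E E M hM) ∧ GoodRedAt P E M w VM (t2E E M hM)⁻¹ := by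
  classical
  haveI : Fact (Nat.Prime 3) := ⟨Nat.prime_three⟩
  have hx : Fermat.Agent.S18.Mod.IsCoordinate M 3 (Fermat.Agent.S18.H333.t2Om M hM) {0, -64} :=
    Or.inr ⟨Or.inl ⟨rfl, Fermat.Agent.S18.H333.t2Om_rel M hM, fun s => by simp⟩,
      ⟨t2Z, Fermat.Agent.S18.H333.t2Z_coeff_neg_one,
        fun k hk => Fermat.Agent.S18.H333.t2Z_coeff_of_lt hk,
        Fermat.Agent.S18.H333.omOf_coe M t2Z _, Fermat.Agent.S18.H333.t2Q_mem M hM⟩⟩
  have G := Fermat.Agent.S18.Mod.H216.goodModel_of_partR M P E h3M hP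
    (H216.partR_bridge_cE P E M Nat.prime_three hP hw) hx
  exact ⟨H216.goodRedAt_of_goodModel hV _ (bridge_t2E E M hM) G,
    H216.goodRedAt_inv_of_goodModel hV _ (bridge_t2E E M hM) G⟩

/-- Good reduction in the charts of `t₃` (`q = 2`, `3 ∣ M`), over any level `E`. -/
theorem goodRedAt_t3 (hP : P.LiesOverPrime 2) (h2M : ¬ 2 ∣ M) (hM : 3 ∣ M)
    [IsDiscreteValuationRing (RE P E)] (w : RE P E) (hw : Irreducible w)
    (VM : ValuationSubring (FE E M)) (hV : IsVinf P E M VM) :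
    GoodRedAt P E M w VM (t3E E M hM) ∧ GoodRedAt P E M w VM (t3E E M hM)⁻¹ := by
  classical
  haveI : Fact (Nat.Prime 2) := ⟨Nat.prime_two⟩
  have hx : Fermat.Agent.S18.Mod.IsCoordinate M 2 (Fermat.Agent.S18.H333.t3Om M hM) {0, -27} :=
    Or.inr ⟨Or.inr ⟨rfl, Fermat.Agent.S18.H333.t3Om_rel M hM, fun s => by simp⟩,
      ⟨t3Z, Fermat.Agent.S18.H333.t3Z_coeff_neg_one,
        fun k hk => Fermat.Agent.S18.H333.t3Z_coeff_of_lt hk,
        Fermat.Agent.S18.H333.omOf_coe M t3Z _, Fermat.Agent.S18.H333.t3Q_mem M hM⟩⟩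
  have G := Fermat.Agent.S18.Mod.H216.goodModel_of_partR M P E h2M hP
    (H216.partR_bridge_cE P E M Nat.prime_two hP hw) hx
  exact ⟨H216.goodRedAt_of_goodModel hV _ (bridge_t3E E M hM) G,
    H216.goodRedAt_inv_of_goodModel hV _ (bridge_t3E E M hM) G⟩

/-- **GOODRED, `q = 3`**, `2 ∣ M`. -/
theorem goodRedHyp_three (hP : P.LiesOverPrime 3) (h3M : ¬ 3 ∣ M) (hM : 2 ∣ M)
    (hdvr : IsDiscreteValuationRing (RE P E)) : GoodRedHyp P E M :=
  goodRedHyp_of_t2 P E M hP (NeZero.ne M) hM hdvr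
    (fun w VM hw hV => goodRedAt_t2 P E M hP h3M hM w hw VM hV)

/-- **GOODRED, `q = 2`**, `3 ∣ M`. -/
theorem goodRedHyp_two (hP : P.LiesOverPrime 2) (h2M : ¬ 2 ∣ M) (hM : 3 ∣ M)
    (hdvr : IsDiscreteValuationRing (RE P E)) : GoodRedHyp P E M :=
  goodRedHyp_of_t3 P E M hP (NeZero.ne M) hM hdvr
    (fun w VM hw hV => goodRedAt_t3 P E M hP h2M hM w hw VM hV)

/-- **GOODRED, all `q`**: the level-`M` hypothesis of MODASM holds for every prime `q ∤ M`
(with `2 ∣ M` if `q = 3`, `3 ∣ M` if `q = 2`) over every level `E` with `R_E` a DVR. -/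
theorem goodRedHyp_all {q : ℕ} (hq : q.Prime) (hqM : ¬ q ∣ M) (h3 : q = 3 → 2 ∣ M)
    (h2 : q = 2 → 3 ∣ M) (hP : P.LiesOverPrime q) (hdvr : IsDiscreteValuationRing (RE P E)) :
    GoodRedHyp P E M := by
  by_cases hq3 : q = 3
  · subst hq3
    exact goodRedHyp_three P E M hP hqM (h3 rfl) hdvr
  by_cases hq2 : q = 2
  · subst hq2
    exact goodRedHyp_two P E M hP hqM (h2 rfl) hdvr
  · have h5 : 5 ≤ q := by
      have h2' := hq.two_le
      by_contra hlt
      have : q = 4 := by omega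
      subst this
      exact absurd hq (by norm_num)
    exact H216.goodRedHyp P E M hq h5 hqM hP hdvr

end Fermat.Agent.A2.Mod.H189

namespace Fermat.Agent.A2.Mod.H189

open Fermat.Agent.A2

/-- **GOODRED CLOSED**: the exact hand-in `Top.H994.GoodRedStatement`. -/
theorem goodRedStatement : Top.H994.GoodRedStatement := by
  intro P E M q _ _ hq hqM h3 h2 hP hE
  exact goodRedHyp_all P E M hq hqM h3 h2 hP hE.dvr

end Fermat.Agent.A2.Mod.H189
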